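/-
S33 programme, brick A2 (helper16), part (b): minimal primes of a reduced noetherian ring.

For a minimal prime `𝔭` of a reduced noetherian commutative ring `T` there is `a ∉ 𝔭` whose
annihilator is exactly `𝔭` (`exists_ann_eq`); an element annihilated by all these `a` is zero
(`eq_zero_of_forall_mul_eq_zero`).  Mathlib only.
-/
import Mathlib

set_option autoImplicit false

namespace Fermat.Agent.S33P.Alg16.MinPrimes

variable {T : Type*} [CommRing T]

/-- `a` is an *annihilator witness* of the prime `𝔭`: `a ∉ 𝔭` and `Ann a = 𝔭`. -/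
def IsAnnWitness (𝔭 : Ideal T) (a : T) : Prop :=
  a ∉ 𝔭 ∧ ∀ x : T, x * a = 0 ↔ x ∈ 𝔭

theorem IsAnnWitness.mul_eq_zero {𝔭 : Ideal T} {a : T} (h : IsAnnWitness 𝔭 a) {x : T}
    (hx : x ∈ 𝔭) : x * a = 0 := (h.2 x).2 hx

theorem IsAnnWitness.mem_of_mul_eq_zero {𝔭 : Ideal T} {a : T} (h : IsAnnWitness 𝔭 a) {x : T}
    (hx : x * a = 0) : x ∈ 𝔭 := (h.2 x).1 hx

variable [IsNoetherianRing T] [IsReduced T]

omit [IsNoetherianRing T] in
/-- In a reduced ring, the intersection of the minimal primes is zero. -/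
theorem sInf_minimalPrimes_eq_bot : sInf (minimalPrimes T) = (⊥ : Ideal T) := by
  rw [minimalPrimes, Ideal.sInf_minimalPrimes]
  exact nilradical_eq_zero T

omit [IsNoetherianRing T] in
theorem eq_zero_of_forall_mem_minimalPrimes {x : T} (h : ∀ 𝔭 ∈ minimalPrimes T, x ∈ 𝔭) :
    x = 0 := by
  have : x ∈ sInf (minimalPrimes T) := by
    rw [Ideal.mem_sInf]
    exact fun {I} hI => h I hI
  rw [minimalPrimes, Ideal.sInf_minimalPrimes] at this
  have h0 : nilradical T = 0 := nilradical_eq_zero T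
  rw [show (⊥ : Ideal T).radical = nilradical T from rfl, h0] at this
  exact this

/-- For a minimal prime `𝔭` of a reduced noetherian ring there is `a ∉ 𝔭` with `Ann a = 𝔭`. -/
theorem exists_ann_eq {𝔭 : Ideal T} (h𝔭 : 𝔭 ∈ minimalPrimes T) : ∃ a : T, IsAnnWitness 𝔭 a := by
  classical
  have hfin : (minimalPrimes T).Finite := minimalPrimes.finite_of_isNoetherianRing T
  have hprime : 𝔭.IsPrime := h𝔭.1.1
  have hnot : ¬ ((hfin.toFinset.erase 𝔭).inf id ≤ 𝔭) := by
    intro hle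
    obtain ⟨q, hq, hqp⟩ := hprime.inf_le'.mp hle
    rw [Finset.mem_erase, Set.Finite.mem_toFinset] at hq
    have h1 : 𝔭 ≤ q := h𝔭.2 hq.2.1 hqp
    exact hq.1 (le_antisymm hqp h1)
  obtain ⟨a, ha, hap⟩ := SetLike.not_le_iff_exists.mp hnot
  refine ⟨a, hap, fun x => ⟨fun hx => ?_, fun hx => ?_⟩⟩
  · have h1 : x * a ∈ 𝔭 := hx ▸ 𝔭.zero_mem
    exact (hprime.mem_or_mem h1).resolve_right hap
  · apply eq_zero_of_forall_mem_minimalPrimes
    intro q hq
    by_cases hqp : q = 𝔭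
    · subst hqp
      exact Ideal.mul_mem_right _ _ hx
    · have h1 : (hfin.toFinset.erase 𝔭).inf id ≤ q :=
        Finset.inf_le (f := id) (Finset.mem_erase.mpr ⟨hqp, hfin.mem_toFinset.mpr hq⟩)
      exact Ideal.mul_mem_left _ _ (h1 ha)

omit [IsNoetherianRing T] in
/-- An element killed by annihilator witnesses of all minimal primes is zero. -/
theorem eq_zero_of_forall_mul_eq_zero {x : T}
    (h : ∀ 𝔭 ∈ minimalPrimes T, ∃ a : T, IsAnnWitness 𝔭 a ∧ x * a = 0) : x = 0 := by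
  apply eq_zero_of_forall_mem_minimalPrimes
  intro 𝔭 h𝔭
  obtain ⟨a, ha, hxa⟩ := h 𝔭 h𝔭
  exact ha.mem_of_mul_eq_zero hxa

end Fermat.Agent.S33P.Alg16.MinPrimes
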