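/-
S33 programme, brick A2' (helper16), part (a): reducedness of the Hecke–Galois coefficient ring.

Let `R` be a commutative ring which is finite free over `ℤ` and reduced (the anemic Hecke algebra),
`𝒪` a domain of characteristic zero, `T` a finite free `𝒪`-algebra generated over `𝒪` by the image
of a ring hom `π : R →+* T`.  Then `T` is reduced (`isReduced_of_adjoin`).

Proof: `T ↪ Frac 𝒪 ⊗[𝒪] T`, and the latter is a quotient of `Frac 𝒪 ⊗[ℚ] (ℚ ⊗[ℤ] R)`, which is
formally unramified over the field `Frac 𝒪` (`Flat83.SepFamily.formallyUnramified_rat_tensor` and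
base change); a formally unramified algebra of finite type over a field is reduced.
-/
import Mathlib
import Fermat.Agent.Flat83.SepFamily

set_option autoImplicit false
set_option linter.style.haveILetI false
set_option linter.unusedSectionVars false

noncomputable section

namespace Fermat.Agent.S33P.Alg16.Reduced

open TensorProduct

section Generic

variable (R : Type*) [CommRing R] [Module.Finite ℤ R] [Module.Free ℤ R] [IsReduced R]
  {F A : Type*} [Field F] [CharZero F] [CommRing A] [Algebra F A]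

/-- An algebra over a field of characteristic zero which is generated by the image of a reduced
ring which is finite free over `ℤ` is formally unramified. -/
theorem formallyUnramified_of_adjoin (φ : R →+* A)
    (hφ : Algebra.adjoin F (Set.range φ) = ⊤) : Algebra.FormallyUnramified F A := by
  letI algQA : Algebra ℚ A := ((algebraMap F A).comp (algebraMap ℚ F)).toAlgebra
  haveI : IsScalarTower ℚ F A := IsScalarTower.of_algebraMap_eq' rfl
  let ψ : ℚ ⊗[ℤ] R →ₐ[ℚ] A :=
    Algebra.TensorProduct.lift (Algebra.ofId ℚ A) φ.toIntAlgHom (fun _ _ => Commute.all _ _)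
  let Θ : F ⊗[ℚ] (ℚ ⊗[ℤ] R) →ₐ[F] A :=
    Algebra.TensorProduct.lift (Algebra.ofId F A) ψ (fun _ _ => Commute.all _ _)
  have hΘ : ∀ r : R, Θ (1 ⊗ₜ[ℚ] (1 ⊗ₜ[ℤ] r)) = φ r := by
    intro r
    simp [Θ, ψ]
  have hsurj : Function.Surjective Θ := by
    rw [← AlgHom.range_eq_top, eq_top_iff, ← hφ]
    refine Algebra.adjoin_le ?_
    rintro _ ⟨r, rfl⟩
    exact ⟨_, hΘ r⟩
  haveI : Algebra.FormallyUnramified ℚ (ℚ ⊗[ℤ] R) :=
    Fermat.Agent.Flat83.SepFamily.formallyUnramified_rat_tensor R
  haveI : Algebra.FormallyUnramified F (F ⊗[ℚ] (ℚ ⊗[ℤ] R)) := inferInstance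
  exact Algebra.FormallyUnramified.of_surjective (A := F ⊗[ℚ] (ℚ ⊗[ℤ] R)) Θ hsurj

end Generic

variable (R : Type*) [CommRing R] [Module.Finite ℤ R] [Module.Free ℤ R] [IsReduced R]
  (𝒪 : Type*) [CommRing 𝒪] [IsDomain 𝒪] [CharZero 𝒪]
  (T : Type*) [CommRing T] [Algebra 𝒪 T] [Module.Finite 𝒪 T] [Module.Free 𝒪 T]

local notation "F" => FractionRing 𝒪

/-- **Reducedness of `T`.** -/
theorem isReduced_of_adjoin (π : R →+* T) (hπ : Algebra.adjoin 𝒪 (Set.range π) = ⊤) :
    IsReduced T := by
  have : CharZero F := charZero_of_injective_algebraMap (IsFractionRing.injective 𝒪 F)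
  have hinj : Function.Injective (Algebra.TensorProduct.includeRight (R := 𝒪) (A := F) (B := T)) :=
    Algebra.TensorProduct.includeRight_injective (IsFractionRing.injective 𝒪 F)
  let φ : R →+* F ⊗[𝒪] T :=
    (Algebra.TensorProduct.includeRight (R := 𝒪) (A := F) (B := T)).toRingHom.comp π
  have hmem : ∀ t : T, ((1 : F) ⊗ₜ[𝒪] t : F ⊗[𝒪] T) ∈ Algebra.adjoin F (Set.range φ) := by
    intro t
    have ht : t ∈ Algebra.adjoin 𝒪 (Set.range π) := by rw [hπ]; trivial
    induction ht using Algebra.adjoin_induction with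
    | mem x hx =>
      obtain ⟨r, rfl⟩ := hx
      exact Algebra.subset_adjoin ⟨r, rfl⟩
    | algebraMap c =>
      have : ((1 : F) ⊗ₜ[𝒪] (algebraMap 𝒪 T c) : F ⊗[𝒪] T) =
          algebraMap F (F ⊗[𝒪] T) (algebraMap 𝒪 F c) := by
        calc ((1 : F) ⊗ₜ[𝒪] (algebraMap 𝒪 T c) : F ⊗[𝒪] T)
            = (1 : F) ⊗ₜ[𝒪] (c • (1 : T)) := by rw [Algebra.algebraMap_eq_smul_one]
          _ = (c • (1 : F)) ⊗ₜ[𝒪] (1 : T) := (TensorProduct.smul_tmul c (1 : F) (1 : T)).symm
          _ = (algebraMap 𝒪 F c) ⊗ₜ[𝒪] (1 : T) := by rw [← Algebra.algebraMap_eq_smul_one]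
          _ = algebraMap F (F ⊗[𝒪] T) (algebraMap 𝒪 F c) := by
            rw [Algebra.TensorProduct.algebraMap_apply]
            rfl
      rw [this]
      exact Subalgebra.algebraMap_mem _ _
    | add x y _ _ hx hy =>
      rw [TensorProduct.tmul_add]
      exact Subalgebra.add_mem _ hx hy
    | mul x y _ _ hx hy =>
      have : ((1 : F) ⊗ₜ[𝒪] (x * y) : F ⊗[𝒪] T) = ((1 : F) ⊗ₜ[𝒪] x) * ((1 : F) ⊗ₜ[𝒪] y) := by
        rw [Algebra.TensorProduct.tmul_mul_tmul, one_mul]
      rw [this]
      exact Subalgebra.mul_mem _ hx hy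
  have htop : Algebra.adjoin F (Set.range φ) = ⊤ := by
    rw [eq_top_iff]
    rintro a -
    induction a using TensorProduct.induction_on with
    | zero => exact Subalgebra.zero_mem _
    | tmul c t =>
      have : (c ⊗ₜ[𝒪] t : F ⊗[𝒪] T) = c • ((1 : F) ⊗ₜ[𝒪] t) := by
        rw [TensorProduct.smul_tmul', smul_eq_mul, mul_one]
      rw [this]
      exact Subalgebra.smul_mem _ (hmem t) c
    | add x y hx hy => exact Subalgebra.add_mem _ hx hy
  haveI : Algebra.FormallyUnramified F (F ⊗[𝒪] T) := formallyUnramified_of_adjoin R φ htop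
  haveI : IsReduced (F ⊗[𝒪] T) := Algebra.FormallyUnramified.isReduced_of_field F (F ⊗[𝒪] T)
  exact isReduced_of_injective _ hinj

end Fermat.Agent.S33P.Alg16.Reduced
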