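/-
S33 programme, brick A2' (helper16), parts (a), (b) in the literal context of the frozen S33:
the coefficient ring `T` of a `HeckeGaloisRepDatum` is reduced, and `ρ(G_ℚ)` spans `End_T V`.
-/
import Mathlib
import Fermat.Prelude.Def_CuspForm_HeckeGaloisRepDatum
import Fermat.Agent.ES.PET.ReducedFinal17
import Fermat.Agent.S22
import Fermat.Agent.Flat83.SpanTop
import Fermat.Agent.S33P.Alg16.Reduced

set_option autoImplicit false
set_option linter.unusedSectionVars false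
set_option linter.style.haveILetI false

namespace Fermat.Agent.S33P.Alg16.Concrete

open CuspForm

variable {N : ℕ} [NeZero N] {S : Finset ℕ}
  {𝒪 : Type} [CommRing 𝒪] [IsDomain 𝒪] [IsDiscreteValuationRing 𝒪]
  [IsAdicComplete (IsLocalRing.maximalIdeal 𝒪) 𝒪]
  {θ : CuspForm.heckeAlgebra N 2 (↑S : Set ℕ) →+* IsLocalRing.ResidueField 𝒪}
  {T : Type} [CommRing T] [IsLocalRing T] [IsNoetherianRing T]
  [IsAdicComplete (IsLocalRing.maximalIdeal T) T] [Algebra 𝒪 T] [IsLocalHom (algebraMap 𝒪 T)]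
  [Module.Finite 𝒪 T] [Module.Free 𝒪 T]

/-- **A2'(a)**: `T` is reduced. -/
theorem isReduced_T [CharZero 𝒪] (hNS : ∀ q : ℕ, q.Prime → q ∣ N → q ∈ S)
    (H : CuspForm.HeckeGaloisRepDatum N (↑S : Set ℕ) 𝒪 θ T) : IsReduced T := by
  have hS : ∀ q : ℕ, q.Prime → q ∣ N → q ∈ (↑S : Set ℕ) := fun q hq hqN => by
    exact_mod_cast hNS q hq hqN
  haveI : Module.Finite ℤ (heckeAlgebra N 2 (↑S : Set ℕ)) := Fermat.Agent.S22.result N 2 _
  haveI : Module.Free ℤ (heckeAlgebra N 2 (↑S : Set ℕ)) := inferInstance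
  haveI : IsReduced (heckeAlgebra N 2 (↑S : Set ℕ)) :=
    Fermat.Agent.ES.PET.ReducedFinal17.isReduced_heckeAlgebra N _ hS
  exact Fermat.Agent.S33P.Alg16.Reduced.isReduced_of_adjoin (heckeAlgebra N 2 (↑S : Set ℕ)) 𝒪 T
    H.π H.adjoin_range_π

/-- **A2'(b)**: the image of Galois spans `End_T V`. -/
theorem span_range_eq_top (H : CuspForm.HeckeGaloisRepDatum N (↑S : Set ℕ) 𝒪 θ T) :
    Submodule.span T (Set.range H.ρ.ρ) = ⊤ :=
  Fermat.Agent.Flat83.SpanTop.span_range_eq_top_of_absIrr H.ρ H.residual_absIrr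

end Fermat.Agent.S33P.Alg16.Concrete
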