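/-
S33 programme, A-half (helper16): **A2'** in the literal S33 context.

`a2Stmt : Main68.A2Stmt` — for a Hecke Galois datum `H` as in the frozen S33:
* `T` is reduced (`Alg16/Concrete.isReduced_T`);
* `det ρ = ε` (helper83, `Embed83/DetLvl.det_eq_cyclo`);
* an inertial `σ0` with `ε σ0 - 1` a unit and `tr ρ(σ0) ≡ ε σ0 + 1 mod 𝔪`
  (helper95, `O2Unram95/Sigma0.exists_sigma0`).
-/
import Mathlib
import Fermat.Agent.S33P.Main68.Top
import Fermat.Agent.S33P.O2Unram95.Sigma0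
import Fermat.Agent.S33P.Embed83.DetLvl
import Fermat.Agent.S33P.Alg16.Concrete

set_option autoImplicit false

noncomputable section

namespace Fermat.Agent.S33P.Alg16.A2

open Fermat.Agent.ES.J.CycloChar8 Fermat.Agent.S33P.Main68

local notation "GQ" => (AlgebraicClosure ℚ ≃ₐ[ℚ] AlgebraicClosure ℚ)
local notation "Qb" => AlgebraicClosure ℚ

/-- the cyclotomic character is congruent to `a` modulo `p ^ n` as soon as `g` raises the
`p ^ n`-th roots of unity to the `a`-th power. -/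
theorem cyclo_sub_natCast_mem (p : ℕ) [Fact p.Prime] (n : ℕ) (g : GQ) (a : ℕ)
    (h : ∀ μ : Qb, μ ^ p ^ n = 1 → g μ = μ ^ a) :
    ((cyclo p g : ℤ_[p]ˣ) : ℤ_[p]) - (a : ℤ_[p]) ∈ Ideal.span {((p ^ n : ℕ) : ℤ_[p])} := by
  obtain ⟨ζ, hζ⟩ := exists_primitiveRoot p n
  have h1 := toZModPow_cyclo p hζ (h ζ hζ.pow_eq_one)
  rw [Nat.cast_pow, ← PadicInt.ker_toZModPow, RingHom.mem_ker, map_sub, h1, map_natCast, sub_self]

/-- the same for `ε = (ℤ_p → T) ∘ χ_cyc`. -/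
theorem eps_sub_natCast_mem (p : ℕ) [Fact p.Prime] {T : Type} [CommRing T] [IsLocalRing T]
    [IsAdicComplete (IsLocalRing.maximalIdeal T) T]
    (hpT : (p : T) ∈ IsLocalRing.maximalIdeal T) (n : ℕ) (g : GQ) (a : ℕ)
    (h : ∀ μ : Qb, μ ^ p ^ n = 1 → g μ = μ ^ a) :
    eps p hpT g - (a : T) ∈ Ideal.span {((p ^ n : ℕ) : T)} := by
  have h1 := cyclo_sub_natCast_mem p n g a h
  rw [Ideal.mem_span_singleton] at h1 ⊢
  obtain ⟨c, hc⟩ := h1
  refine ⟨Fermat.Agent.ES.J.PadicAlg8.padicToLocal p hpT c, ?_⟩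
  have h2 := congrArg (Fermat.Agent.ES.J.PadicAlg8.padicToLocal p hpT) hc
  rw [map_sub, map_mul, map_natCast, map_natCast] at h2
  exact h2

/-- **A2'** in the literal S33 context. -/
theorem a2Stmt : A2Stmt := by
  intro p N _ S 𝒪 _ _ _ _ θ T _ _ _ _ _ _ _ _ _ _ hpF hp2 hp𝒪 hN hNS H hres hpT
  have hpS : p ∈ S := hNS p hpF.out hN.1
  have hdet : ∀ g : GQ, LinearMap.det (H.ρ.ρ g) = eps p hpT g :=
    Fermat.Agent.S33P.Embed83.det_eq_cyclo hpT hpS hNS H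
  have hc := Fermat.Agent.S33P.O2Unram95.detCycloModMax_of_eps p H.ρ hpT (eps p hpT) hdet
    (fun n g a h => eps_sub_natCast_mem p hpT n g a h)
  obtain ⟨σ0, h0, hu, htr, _⟩ :=
    Fermat.Agent.S33P.O2Unram95.exists_sigma0 p H.ρ hp2 hpT (eps p hpT) hdet hc hres
  exact ⟨Fermat.Agent.S33P.Alg16.Concrete.isReduced_T hNS H, hdet, σ0, h0, hu, htr⟩

end Fermat.Agent.S33P.Alg16.A2
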