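/-
S33 programme, A-half (helper16): the abstract assembly.

`cubic_of_halves`: the cubic identity `(ρτ − ετ)(ρσ − 1)(ρσ' − 1) = 0` on `V` from
* the same identity on `ker B` (the `p`-new half), transported through the injective equivariant
  `T`-linear `Ψ : V → X`;
* the quadratic identity on every `aV ≅ V/𝔭V` which embeds into `X'` through `B ∘ Ψ` (the `p`-old
  half);
using the dichotomy at the minimal primes of the reduced noetherian ring `T`.
-/
import Mathlib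
import Fermat.Agent.S33P.Alg16.MinPrimes
import Fermat.Agent.S33P.A4Abs61.Dichotomy
import Fermat.Agent.S33P.Quot64.Tensor

set_option autoImplicit false

namespace Fermat.Agent.S33P.Alg16.Assembly

open Fermat.Agent.S33P.Alg16.MinPrimes

variable {Z : Type*} [CommRing Z]
  {T : Type*} [CommRing T] [IsNoetherianRing T] [IsReduced T] [Algebra Z T] [Algebra.IsIntegral Z T]
  {V : Type*} [AddCommGroup V] [Module T V] [Module.Free T V]
  {G : Type*} [Monoid G] (ρ : G →* Module.End T V)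
  {X X' : Type*} [AddCommGroup X] [Module T X] [AddCommGroup X'] [Module T X']
  (ρX : G → Module.End T X) (ρX' : G → Module.End T X')

theorem cubic_of_halves (hspan : Submodule.span T (Set.range ρ) = ⊤)
    (Ψ : V →ₗ[T] X) (hΨ : Function.Injective Ψ) (hΨeq : ∀ g v, Ψ (ρ g v) = ρX g (Ψ v))
    (B : X →ₗ[T] X') (hBeq : ∀ g x, B (ρX g x) = ρX' g (B x))
    (htf : ∀ z : Z, z ≠ 0 → ∀ x : X', algebraMap Z T z • x = 0 → x = 0)
    (I : Set G) (ε : G → T)
    (hnew : ∀ σ ∈ I, ∀ σ' ∈ I, ∀ τ ∈ I, ∀ x : X, B x = 0 →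
      (ρX τ - ε τ • 1) ((ρX σ - 1) ((ρX σ' - 1) x)) = 0)
    (hold : ∀ 𝔭 ∈ minimalPrimes T, ∀ a : T, IsAnnWitness 𝔭 a →
      (∀ v : V, B (Ψ (a • v)) = 0 → a • v = 0) →
      ∀ σ ∈ I, ∀ τ ∈ I, ∀ v : V, a • ((ρ τ - ε τ • 1) ((ρ σ - 1) v)) = 0) :
    ∀ σ ∈ I, ∀ σ' ∈ I, ∀ τ ∈ I, (ρ τ - ε τ • 1) * (ρ σ - 1) * (ρ σ' - 1) = 0 := by
  intro σ hσ σ' hσ' τ hτ
  apply Fermat.Agent.S33P.Quot64.eq_zero_of_forall_witness
  intro 𝔭 h𝔭
  obtain ⟨a, ha⟩ := exists_ann_eq h𝔭
  have : 𝔭.IsPrime := h𝔭.1.1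
  refine ⟨a, ha, fun v => ?_⟩
  -- equivariance of `Ψ` for the three factors
  have e1 : ∀ (g : G) (w : V), Ψ ((ρ g - 1) w) = (ρX g - 1) (Ψ w) := fun g w => by
    rw [LinearMap.sub_apply, LinearMap.sub_apply, Module.End.one_apply, Module.End.one_apply,
      map_sub, hΨeq]
  have e2 : ∀ (g : G) (w : V), Ψ ((ρ g - ε g • 1) w) = (ρX g - ε g • 1) (Ψ w) := fun g w => by
    rw [LinearMap.sub_apply, LinearMap.sub_apply, LinearMap.smul_apply, LinearMap.smul_apply,
      Module.End.one_apply, Module.End.one_apply, map_sub, hΨeq, map_smul]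
  rcases Fermat.Agent.S33P.A4Abs61.dichotomy (Z := Z) ρ ρX' hspan (B ∘ₗ Ψ)
      (fun g w => by rw [LinearMap.comp_apply, LinearMap.comp_apply, hΨeq, hBeq]) htf 𝔭 a ha
    with hN | hO
  · -- the `p`-new case
    apply hΨ
    rw [map_zero, map_smul, Module.End.mul_apply, Module.End.mul_apply, e2, e1, e1]
    have h0 := hnew σ hσ σ' hσ' τ hτ (Ψ (a • v)) (hN v)
    rw [map_smul, map_smul, map_smul, map_smul] at h0
    exact h0
  · -- the `p`-old case
    have h0 := hold 𝔭 h𝔭 a ha hO σ hσ τ hτ ((ρ σ' - 1) v)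
    rw [Module.End.mul_apply, Module.End.mul_apply]
    exact h0

end Fermat.Agent.S33P.Alg16.Assembly
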