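/-
S33 programme, A-half (helper16): the `p`-old half `hold` in the literal S33 context.

`hold_of_s19` — for a Hecke Galois datum `H` as in the frozen S33, any `ℤ_p`-structure on `T` and
`V = H.ρ.V` compatible with the `T`-structure, a prime `𝔭` of `T` with annihilator witness `a`, an
auxiliary level `M'` prime to `p` and an equivariant `ℤ_p`-linear map
`Φ : V → (Ta_p J₀(M'))^κ` injective on `a V`:

  `a • ((ρ τ - ε τ)((ρ σ - 1) v)) = 0`   for `σ, τ ∈ I_p`.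

This is the hypothesis `hold` of `Main68.cubicOn_concrete` (helper68) and of
`Alg16.Assembly.cubic_of_halves`, verbatim.  It is `Red63.quad_of_embedding_adic` (helper63) fed
with `det ρ = ε` (helper83), the cyclotomic congruence (`Alg16/A2`) and S19 in the intrinsic form
`Flat44.S19FlatTarget` (helper34, `FlatS19_34/Core`), which is kept as an explicit hypothesis so that
this file has a light import closure; it is discharged by `FlatS19_34.s19FlatTarget`.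
-/
import Mathlib
import Fermat.Agent.S33P.Red63.OldHalf
import Fermat.Agent.S33P.FlatS19_34.Core
import Fermat.Agent.S33P.Alg16.A2
import Fermat.Agent.S33P.Alg16.MinPrimes

set_option autoImplicit false

noncomputable section

namespace Fermat.Agent.S33P.Alg16.OldPlug

open AlgebraicCurve ModularCurve
open Fermat.Agent.ES.J.CycloChar8 Fermat.Agent.ES.J.TateModule13 Fermat.Agent.S33P.Main68
  Fermat.Agent.T1B.Plumb66.Inertia Fermat.Agent.S33P.Alg16.MinPrimes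

local notation "GQ" => (AlgebraicClosure ℚ ≃ₐ[ℚ] AlgebraicClosure ℚ)

variable {p : ℕ} {N : ℕ} [NeZero N] {S : Finset ℕ}
  {𝒪 : Type} [CommRing 𝒪] [IsDomain 𝒪] [IsDiscreteValuationRing 𝒪]
  [IsAdicComplete (IsLocalRing.maximalIdeal 𝒪) 𝒪]
  {θ : CuspForm.heckeAlgebra N 2 (↑S : Set ℕ) →+* IsLocalRing.ResidueField 𝒪}
  {T : Type} [CommRing T] [IsLocalRing T] [IsNoetherianRing T]
  [IsAdicComplete (IsLocalRing.maximalIdeal T) T] [Algebra 𝒪 T] [IsLocalHom (algebraMap 𝒪 T)]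
  [Module.Finite 𝒪 T] [Module.Free 𝒪 T]

/-- **The `p`-old half in the literal S33 context** (`hold` of `Main68.cubicOn_concrete`). -/
theorem hold_of_s19 (h19 : Fermat.Agent.Flat44.S19FlatTarget) [Fact p.Prime]
    (hp2 : p ≠ 2) (hN : p ∣ N ∧ ¬ p ^ 2 ∣ N) (hNS : ∀ q : ℕ, q.Prime → q ∣ N → q ∈ S)
    (H : CuspForm.HeckeGaloisRepDatum N (↑S : Set ℕ) 𝒪 θ T)
    (hres : (GaloisRepAdic.ofResidualGaloisRep H.ρ.residual).IsOrdinaryAt p)
    (hpT : (p : T) ∈ IsLocalRing.maximalIdeal T)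
    [Algebra ℤ_[p] T] [Module ℤ_[p] H.ρ.V] [IsScalarTower ℤ_[p] T H.ρ.V]
    (M' : ℕ) [NeZero M'] (hpM : ¬ p ∣ M') (𝔭 : Ideal T) (a : T) (ha : IsAnnWitness 𝔭 a)
    (κ : ℕ) (Φ : H.ρ.V →ₗ[ℤ_[p]] (Fin κ → TateModule p (JZero M')))
    (hΦ : ∀ (g : GQ) (v : H.ρ.V) (i : Fin κ), Φ (H.ρ.ρ g v) i = rho p (JZero M') g (Φ v i))
    (hinj : ∀ v : H.ρ.V, Φ (a • v) = 0 → a • v = 0) :
    ∀ σ ∈ IA p, ∀ τ ∈ IA p, ∀ v : H.ρ.V,
      a • ((H.ρ.ρ τ - eps p hpT τ • 1) ((H.ρ.ρ σ - 1) v)) = 0 := by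
  have hpS : p ∈ S := hNS p (Fact.out : p.Prime) hN.1
  have hdet : ∀ g : GQ, LinearMap.det (H.ρ.ρ g) = eps p hpT g :=
    Fermat.Agent.S33P.Embed83.det_eq_cyclo hpT hpS hNS H
  have hc := Fermat.Agent.S33P.O2Unram95.detCycloModMax_of_eps p H.ρ hpT (eps p hpT) hdet
    (fun n g a h => Fermat.Agent.S33P.Alg16.A2.eps_sub_natCast_mem p hpT n g a h)
  have : Finite {y : JZero M' // p • y = 0} :=
    Fermat.Agent.S33P.FlatS19_34.Core.finite_pTorsion (p := p) M'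
  exact Fermat.Agent.S33P.Red63.quad_of_embedding_adic hp2 hpT H.ρ (eps p hpT) hdet hc hres 𝔭 a
    ha.2 (fun n => Fermat.Agent.S33P.FlatS19_34.Core.hasFlatModel_torsion h19 M' hpM n) Φ hΦ hinj

end Fermat.Agent.S33P.Alg16.OldPlug
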